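import Fermat.Agent.S56.H314.AvlSpec

/-!
# S56 / W-BASE / AVL: `LatticeChainStatement` (Brauer–Nesbitt for lattices)  — helper765

`theorem latticeChain765 : Fermat.Agent.S56.H314.LatticeChainStatement`.

Route (coord/S56-AVL-helper314.md, item 5): induction on `M`; prime step `ℓ • B ≤ A ≤ B`:
`f = incl : A → B`, `g = ℓ : B → A`; for `ℓ ≠ p` restriction `f^*` is bijective, for `ℓ = p`
the pair `(f^*, g^*)` is exact in both directions (EXT lemma: linear extension over `𝔽_p`).
Mathlib only.
-/

set_option autoImplicit false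

noncomputable section

namespace Fermat.Agent.S56.H765


theorem exists_retract_zmod765 {p : ℕ} [Fact p.Prime] {X Y : Type} [AddCommGroup X]
    [AddCommGroup Y] [Module (ZMod p) X] [Module (ZMod p) Y] (ι : X →+ Y)
    (hι : Function.Injective ι) : ∃ r : Y →+ X, ∀ x, r (ι x) = x := by
  obtain ⟨r, hr⟩ := LinearMap.exists_leftInverse_of_injective (ι.toZModLinearMap p)
    (LinearMap.ker_eq_bot.mpr hι)
  refine ⟨r.toAddMonoidHom, fun x => ?_⟩
  have := congrArg (fun g => g x) hr
  simpa using this

theorem exists_retract765 {p : ℕ} [Fact p.Prime] {X Y : Type} [AddCommGroup X]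
    [AddCommGroup Y] (hX : ∀ x : X, p • x = 0) (hY : ∀ y : Y, p • y = 0) (ι : X →+ Y)
    (hι : Function.Injective ι) : ∃ r : Y →+ X, ∀ x, r (ι x) = x :=
  @exists_retract_zmod765 p _ X Y _ _ (AddCommGroup.zmodModule hX) (AddCommGroup.zmodModule hY)
    ι hι

/-- **EXT lemma.**  An additive `v : D → N` that vanishes on `f ⁻¹ (p E)` factors through
`f : D → E`. -/
theorem exists_extend_of_vanish765 {p : ℕ} [Fact p.Prime] {D E N : Type} [AddCommGroup D]
    [AddCommGroup E] [AddCommGroup N]
    (f : D →+ E) (v : D →+ N)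
    (hv : ∀ d : D, (∃ e : E, f d = p • e) → v d = 0) :
    ∃ u : E →+ N, ∀ d, u (f d) = v d := by
  classical
  set P : AddSubgroup E := (nsmulAddMonoidHom p : E →+ E).range with hP
  set K : AddSubgroup D := P.comap f with hK
  have hKv : K ≤ v.ker := by
    intro d hd
    rw [AddMonoidHom.mem_ker]
    obtain ⟨e, he⟩ := hd
    exact hv d ⟨e, he.symm⟩
  let ι : D ⧸ K →+ E ⧸ P := QuotientAddGroup.map K P f le_rfl
  have hι : Function.Injective ι := by
    rw [injective_iff_map_eq_zero]
    intro x hx
    induction x using QuotientAddGroup.induction_on with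
    | H d =>
      have h1 : ι (d : D ⧸ K) = ((f d : E) : E ⧸ P) := rfl
      rw [h1, QuotientAddGroup.eq_zero_iff] at hx
      exact (QuotientAddGroup.eq_zero_iff d).mpr hx
  let vbar : D ⧸ K →+ N := QuotientAddGroup.lift K v hKv
  have hDK : ∀ x : D ⧸ K, p • x = 0 := by
    intro x
    induction x using QuotientAddGroup.induction_on with
    | H d =>
      rw [← QuotientAddGroup.mk_nsmul, QuotientAddGroup.eq_zero_iff]
      show f (p • d) ∈ P
      rw [map_nsmul]
      exact ⟨f d, rfl⟩
  have hEP : ∀ x : E ⧸ P, p • x = 0 := by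
    intro x
    induction x using QuotientAddGroup.induction_on with
    | H e =>
      rw [← QuotientAddGroup.mk_nsmul, QuotientAddGroup.eq_zero_iff]
      exact ⟨e, rfl⟩
  obtain ⟨r, hr⟩ := exists_retract765 hDK hEP ι hι
  refine ⟨vbar.comp (r.comp (QuotientAddGroup.mk' P)), fun d => ?_⟩
  have h3 : ι (d : D ⧸ K) = ((f d : E) : E ⧸ P) := rfl
  show vbar (r ((f d : E) : E ⧸ P)) = v d
  rw [← h3, hr]
  rfl


open Fermat.Agent.S56.H314

variable {k : Type} [Field k] {G : Type} [Group G]



/-- a zero representation has `φ = 0` -/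
theorem phi_subsingleton765 {φ : Rep.{0, 0, 0} k G → ℤ} (hφ : IsAdditiveFun φ)
    (Z : Rep.{0, 0, 0} k G) [Subsingleton Z] : φ Z = 0 := by
  have hfd : FiniteDimensional k Z := Module.Finite.of_finite
  have h := hφ Z Z Z LinearMap.id 0 hfd hfd hfd (fun _ _ => rfl)
    (fun _ _ => Subsingleton.elim _ _) (fun _ _ h => h)
    (fun c => ⟨0, Subsingleton.elim _ _⟩)
    (by
      ext x
      simp [Subsingleton.elim x 0])
  omega

/-- the kernel of an equivariant map, as a subrepresentation -/
def kerSub765 {X Y : Rep.{0, 0, 0} k G} (F : X →ₗ[k] Y)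
    (hF : ∀ (g : G) (x : X), F (X.ρ g x) = Y.ρ g (F x)) : Subrepresentation X.ρ where
  toSubmodule := LinearMap.ker F
  apply_mem_toSubmodule g v hv := by
    rw [LinearMap.mem_ker] at hv ⊢
    rw [hF, hv, map_zero]

/-- the range of an equivariant map, as a subrepresentation -/
def rangeSub765 {X Y : Rep.{0, 0, 0} k G} (F : X →ₗ[k] Y)
    (hF : ∀ (g : G) (x : X), F (X.ρ g x) = Y.ρ g (F x)) : Subrepresentation Y.ρ where
  toSubmodule := LinearMap.range F
  apply_mem_toSubmodule g v hv := by
    obtain ⟨x, rfl⟩ := hv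
    exact ⟨X.ρ g x, hF g x⟩

theorem phi_ker_range765 {φ : Rep.{0, 0, 0} k G → ℤ} (hφ : IsAdditiveFun φ)
    (X Y : Rep.{0, 0, 0} k G) [FiniteDimensional k X] [FiniteDimensional k Y]
    (F : X →ₗ[k] Y) (hF : ∀ (g : G) (x : X), F (X.ρ g x) = Y.ρ g (F x)) :
    φ X = φ (Rep.of (kerSub765 F hF).toRepresentation) +
      φ (Rep.of (rangeSub765 F hF).toRepresentation) := by
  refine hφ (Rep.of (kerSub765 F hF).toRepresentation) X
    (Rep.of (rangeSub765 F hF).toRepresentation)
    (LinearMap.ker F).subtype F.rangeRestrict ?_ inferInstance ?_ ?_ ?_ ?_ ?_ ?_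
  · exact FiniteDimensional.finiteDimensional_submodule (LinearMap.ker F)
  · exact FiniteDimensional.finiteDimensional_submodule (LinearMap.range F)
  · intro g a
    rfl
  · intro g b
    apply Subtype.ext
    exact hF g b
  · exact Subtype.val_injective
  · exact LinearMap.surjective_rangeRestrict F
  · exact (by rw [Submodule.range_subtype, LinearMap.ker_rangeRestrict] :
      LinearMap.range (LinearMap.ker F).subtype = LinearMap.ker F.rangeRestrict)

theorem phi_eq_of_exact_pair765 {φ : Rep.{0, 0, 0} k G → ℤ} (hφ : IsAdditiveFun φ)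
    (X Y : Rep.{0, 0, 0} k G) [FiniteDimensional k X] [FiniteDimensional k Y]
    (F : X →ₗ[k] Y) (hF : ∀ (g : G) (x : X), F (X.ρ g x) = Y.ρ g (F x))
    (F' : Y →ₗ[k] X) (hF' : ∀ (g : G) (y : Y), F' (Y.ρ g y) = X.ρ g (F' y))
    (h1 : LinearMap.ker F = LinearMap.range F') (h2 : LinearMap.ker F' = LinearMap.range F) :
    φ X = φ Y := by
  have e1 : kerSub765 F hF = rangeSub765 F' hF' := Subrepresentation.toSubmodule_injective h1
  have e2 : kerSub765 F' hF' = rangeSub765 F hF := Subrepresentation.toSubmodule_injective h2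
  rw [phi_ker_range765 hφ X Y F hF, phi_ker_range765 hφ Y X F' hF', e1, e2, add_comm]

theorem phi_eq_of_bijective765 {φ : Rep.{0, 0, 0} k G → ℤ} (hφ : IsAdditiveFun φ)
    (X Y : Rep.{0, 0, 0} k G) [FiniteDimensional k X] [FiniteDimensional k Y]
    (F : X →ₗ[k] Y) (hF : ∀ (g : G) (x : X), F (X.ρ g x) = Y.ρ g (F x))
    (hbij : Function.Bijective F) : φ X = φ Y := by
  have h := hφ X Y (Rep.of (Representation.trivial k G PUnit)) F 0 inferInstance inferInstance
    (Module.Finite.of_finite) hF (fun _ _ => rfl) hbij.1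
    (fun c => ⟨0, Subsingleton.elim _ _⟩)
    (by
      rw [LinearMap.ker_zero, LinearMap.range_eq_top]
      exact hbij.2)
  have hz : φ (Rep.of (Representation.trivial k G PUnit)) = 0 :=
    @phi_subsingleton765 k _ G _ φ hφ (Rep.of (Representation.trivial k G PUnit))
      (inferInstanceAs (Subsingleton PUnit))
  omega




/-- `Hom_ℤ(A, N)` is finite-dimensional when `A` is a finitely generated abelian group -/
theorem finiteDimensional_addMonoidHom765 (A : Type) [AddCommGroup A] [Module.Finite ℤ A]
    (N : Type) [AddCommGroup N] [Module k N] [FiniteDimensional k N] :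
    FiniteDimensional k (A →+ N) := by
  obtain ⟨n, s, hs⟩ := Module.Finite.exists_fin (R := ℤ) (M := A)
  let ev : (A →+ N) →ₗ[k] (Fin n → N) :=
    { toFun := fun u i => u (s i)
      map_add' := fun u v => rfl
      map_smul' := fun c u => rfl }
  refine Module.Finite.of_injective ev ?_
  intro u v huv
  have h : u.toIntLinearMap = v.toIntLinearMap := by
    apply LinearMap.ext_on_range hs
    intro i
    exact congrFun huv i
  ext a
  exact congrArg (fun f => f a) h

/-- precomposition with an additive map, as a `k`-linear map -/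
def precomp765 {D E : Type} [AddCommGroup D] [AddCommGroup E] (N : Type) [AddCommGroup N]
    [Module k N] (j : D →+ E) : (E →+ N) →ₗ[k] (D →+ N) where
  toFun u := u.comp j
  map_add' _ _ := rfl
  map_smul' _ _ := rfl

@[simp] lemma precomp765_apply {D E : Type} [AddCommGroup D] [AddCommGroup E] (N : Type)
    [AddCommGroup N] [Module k N] (j : D →+ E) (u : E →+ N) (d : D) :
    precomp765 (k := k) N j u d = u (j d) := rfl

lemma precomp765_equivariant {D E : Type} [AddCommGroup D] [AddCommGroup E] {N : Type}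
    [AddCommGroup N] [Module k N] (σD : Representation ℤ G D) (σE : Representation ℤ G E)
    (ρ : Representation k G N) (j : D →+ E) (hj : ∀ g d, j (σD g d) = σE g (j d)) (g : G)
    (u : E →+ N) :
    precomp765 (k := k) N j (homRho σE ρ g u) = homRho σD ρ g (precomp765 (k := k) N j u) := by
  ext d
  simp [hj]


section PrimeStep

variable {D E : Type} [AddCommGroup D] [AddCommGroup E] {N : Type} [AddCommGroup N] [Module k N]

/-- case `ℓ ≠ p`: restriction along `j` is bijective -/
theorem precomp765_bijective (j : D →+ E) (j' : E →+ D) (ℓ : ℕ) (hℓ : (ℓ : k) ≠ 0)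
    (h1 : ∀ d, j' (j d) = ℓ • d) (h2 : ∀ e, j (j' e) = ℓ • e) :
    Function.Bijective (precomp765 (k := k) N j) := by
  constructor
  · rw [injective_iff_map_eq_zero]
    intro u hu
    ext e
    have h3 : u (j (j' e)) = 0 := by
      have := congrArg (fun w => w (j' e)) hu
      simpa using this
    rw [h2, map_nsmul, ← Nat.cast_smul_eq_nsmul k] at h3
    rcases smul_eq_zero.mp h3 with h | h
    · exact absurd h hℓ
    · simpa using h
  · intro v
    refine ⟨(ℓ : k)⁻¹ • precomp765 (k := k) N j' v, ?_⟩
    ext d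
    simp only [precomp765_apply, AddMonoidHom.smul_apply, h1, map_nsmul]
    rw [← Nat.cast_smul_eq_nsmul k, smul_smul, inv_mul_cancel₀ hℓ, one_smul]

/-- case `ℓ = p`: exactness at `Hom(E, N)` -/
theorem ker_precomp765_eq_range (p : ℕ) [Fact p.Prime] [CharP k p] (j : D →+ E) (j' : E →+ D)
    (h1 : ∀ d, j' (j d) = p • d) (hj' : Function.Injective j') :
    LinearMap.ker (precomp765 (k := k) N j) = LinearMap.range (precomp765 (k := k) N j') := by
  ext u
  rw [LinearMap.mem_ker, LinearMap.mem_range]
  constructor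
  · intro hu
    have hu' : ∀ d, u (j d) = 0 := fun d => by
      have := congrArg (fun w => w d) hu
      simpa using this
    obtain ⟨w, hw⟩ := exists_extend_of_vanish765 (p := p) j' u (by
      rintro e ⟨d, hd⟩
      rw [← h1] at hd
      rw [hj' hd]
      exact hu' d)
    refine ⟨w, ?_⟩
    ext e
    simpa using hw e
  · rintro ⟨w, rfl⟩
    ext d
    simp only [precomp765_apply, h1, map_nsmul, AddMonoidHom.zero_apply]
    rw [← Nat.cast_smul_eq_nsmul k, CharP.cast_eq_zero, zero_smul]

theorem phi_hom_eq_of_prime765 {φ : Rep.{0, 0, 0} k G → ℤ} (hφ : IsAdditiveFun φ)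
    (p : ℕ) [Fact p.Prime] [CharP k p] [Module.Finite ℤ D] [Module.Finite ℤ E]
    [FiniteDimensional k N]
    (σD : Representation ℤ G D) (σE : Representation ℤ G E) (ρ : Representation k G N)
    (j : D →+ E) (j' : E →+ D) (hj : ∀ g d, j (σD g d) = σE g (j d))
    (hj' : ∀ g e, j' (σE g e) = σD g (j' e)) (ℓ : ℕ) (hℓ : ℓ.Prime)
    (h1 : ∀ d, j' (j d) = ℓ • d) (h2 : ∀ e, j (j' e) = ℓ • e)
    (hjinj : Function.Injective j) (hj'inj : Function.Injective j') :
    φ (Rep.of (homRho σD ρ)) = φ (Rep.of (homRho σE ρ)) := by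
  have : FiniteDimensional k (D →+ N) := finiteDimensional_addMonoidHom765 D N
  have : FiniteDimensional k (E →+ N) := finiteDimensional_addMonoidHom765 E N
  have hfD : FiniteDimensional k (Rep.of (homRho σD ρ)) := finiteDimensional_addMonoidHom765 D N
  have hfE : FiniteDimensional k (Rep.of (homRho σE ρ)) := finiteDimensional_addMonoidHom765 E N
  by_cases hp : ℓ = p
  · subst hp
    symm
    exact phi_eq_of_exact_pair765 hφ (Rep.of (homRho σE ρ)) (Rep.of (homRho σD ρ))
      (precomp765 (k := k) N j) (fun g u => precomp765_equivariant σD σE ρ j hj g u)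
      (precomp765 (k := k) N j') (fun g u => precomp765_equivariant σE σD ρ j' hj' g u)
      (ker_precomp765_eq_range ℓ j j' h1 hj'inj)
      (ker_precomp765_eq_range ℓ j' j h2 hjinj)
  · have hℓk : (ℓ : k) ≠ 0 := by
      intro h0
      rw [CharP.cast_eq_zero_iff k p] at h0
      exact hp ((Nat.prime_dvd_prime_iff_eq (Fact.out : p.Prime) hℓ).mp h0).symm
    symm
    exact phi_eq_of_bijective765 hφ (Rep.of (homRho σE ρ)) (Rep.of (homRho σD ρ))
      (precomp765 (k := k) N j) (fun g u => precomp765_equivariant σD σE ρ j hj g u)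
      (precomp765_bijective j j' ℓ hℓk h1 h2)

end PrimeStep

section Chain

variable {Λ : Type} [AddCommGroup Λ] [Module.Finite ℤ Λ] [Module.Free ℤ Λ]
  {σ : Representation ℤ G Λ} {N : Type} [AddCommGroup N] [Module k N] [FiniteDimensional k N]

/-- prime step for sublattices: `ℓ • B ≤ A ≤ B` -/
theorem phi_hom_sub_eq_of_prime765 {φ : Rep.{0, 0, 0} k G → ℤ} (hφ : IsAdditiveFun φ)
    (p : ℕ) [Fact p.Prime] [CharP k p] (ρ : Representation k G N)
    (A B : Subrepresentation σ) (hAB : A ≤ B) (ℓ : ℕ) (hℓ : ℓ.Prime)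
    (hℓB : ∀ b ∈ B, ℓ • b ∈ A) :
    φ (Rep.of (homRho A.toRepresentation ρ)) = φ (Rep.of (homRho B.toRepresentation ρ)) := by
  have htf : IsAddTorsionFree Λ := .of_isTorsionFree ℤ Λ
  let j : A.toSubmodule →+ B.toSubmodule :=
    { toFun := fun a => ⟨a.1, hAB a.2⟩
      map_zero' := rfl
      map_add' := fun _ _ => rfl }
  let j' : B.toSubmodule →+ A.toSubmodule :=
    { toFun := fun b => ⟨ℓ • b.1, hℓB b.1 b.2⟩
      map_zero' := by
        apply Subtype.ext
        simp
      map_add' := fun x y => by
        apply Subtype.ext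
        simp }
  refine phi_hom_eq_of_prime765 hφ p A.toRepresentation B.toRepresentation ρ j j' ?_ ?_ ℓ hℓ
    ?_ ?_ ?_ ?_
  · intro g d
    rfl
  · intro g e
    apply Subtype.ext
    show ℓ • (σ g e.1) = σ g (ℓ • e.1)
    rw [map_nsmul]
  · intro d
    rfl
  · intro e
    rfl
  · intro a a' h
    apply Subtype.ext
    exact congrArg (fun x : B.toSubmodule => x.1) h
  · intro b b' h
    apply Subtype.ext
    have h' : ℓ • b.1 = ℓ • b'.1 := congrArg (fun x : A.toSubmodule => x.1) h
    exact nsmul_right_injective hℓ.ne_zero h'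

theorem latticeChain_aux765 {φ : Rep.{0, 0, 0} k G → ℤ} (hφ : IsAdditiveFun φ)
    (p : ℕ) [Fact p.Prime] [CharP k p] (ρ : Representation k G N) :
    ∀ M : ℕ, 0 < M → ∀ A B : Subrepresentation σ, A ≤ B → (∀ b ∈ B, M • b ∈ A) →
      φ (Rep.of (homRho A.toRepresentation ρ)) = φ (Rep.of (homRho B.toRepresentation ρ)) := by
  intro M
  induction M using Nat.strong_induction_on with
  | _ M ih =>
    intro hM A B hAB hMB
    rcases Nat.eq_or_lt_of_le (Nat.succ_le_of_lt hM) with h1 | h1
    · have hBA : B ≤ A := fun b hb => by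
        have := hMB b hb
        rwa [← h1, one_nsmul] at this
      have hEq : A = B := le_antisymm hAB hBA
      subst hEq
      rfl
    · have hℓ : M.minFac.Prime := Nat.minFac_prime (by omega)
      obtain ⟨M', hM'⟩ : M.minFac ∣ M := Nat.minFac_dvd M
      set ℓ := M.minFac with hℓdef
      have hM'pos : 0 < M' := by
        rcases Nat.eq_zero_or_pos M' with h0 | h0
        · rw [h0, mul_zero] at hM'
          omega
        · exact h0
      have hM'lt : M' < M := by
        have h2 : 2 ≤ ℓ := hℓ.two_le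
        nlinarith
      let A' : Subrepresentation σ :=
        { toSubmodule :=
            { carrier := {x | x ∈ B ∧ M' • x ∈ A}
              add_mem' := fun {x y} hx hy => by
                refine ⟨B.toSubmodule.add_mem hx.1 hy.1, ?_⟩
                rw [smul_add]
                exact A.toSubmodule.add_mem hx.2 hy.2
              zero_mem' := by
                refine ⟨B.toSubmodule.zero_mem, ?_⟩
                rw [smul_zero]
                exact A.toSubmodule.zero_mem
              smul_mem' := fun c x hx => by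
                refine ⟨B.toSubmodule.smul_mem c hx.1, ?_⟩
                rw [smul_comm]
                exact A.toSubmodule.smul_mem c hx.2 }
          apply_mem_toSubmodule := fun g v hv => by
            refine ⟨B.apply_mem_toSubmodule g hv.1, ?_⟩
            have := A.apply_mem_toSubmodule g hv.2
            rwa [map_nsmul] at this }
      have hAA' : A ≤ A' := fun a ha => ⟨hAB ha, A.toSubmodule.smul_of_tower_mem M' ha⟩
      have hA'B : A' ≤ B := fun a ha => ha.1
      have h3 : ∀ x ∈ A', M' • x ∈ A := fun x hx => hx.2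
      have h4 : ∀ b ∈ B, ℓ • b ∈ A' := fun b hb => by
        refine ⟨B.toSubmodule.smul_of_tower_mem ℓ hb, ?_⟩
        have := hMB b hb
        rw [hM', mul_comm, mul_smul] at this
        exact this
      rw [ih M' hM'lt hM'pos A A' hAA' h3]
      exact phi_hom_sub_eq_of_prime765 hφ p ρ A' B hA'B ℓ hℓ h4

end Chain

/-- **Brauer–Nesbitt for lattices** (`LatticeChainStatement` of `S56/H314/AvlSpec.lean`). -/
theorem latticeChain765 : LatticeChainStatement := by
  intro p _ k _ _ G _ φ hφ Λ _ _ _ σ N _ _ _ ρ A B hAB M hM hMB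
  exact latticeChain_aux765 hφ p ρ M hM A B hAB hMB

end Fermat.Agent.S56.H765

end
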